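import Fermat.Agent.S15.H322.BaseKum

/-!
# S15 / DESC, node STEP, leaf TAU0 (helper11)

Local facts at a place `A | p` of `ℚ̄` about a root `π` of `X ^ r - p` (`r ≠ p` primes) and the
inertia group `I_A`:

* `eq_one_of_pow_eq_one_of_sub_mem` : an `r`-th root of unity `ξ ≡ 1 mod 𝔪_A` is `1`;
* `inertia_fixes_of_pow_fixed` : `σ ∈ I_A` fixes every `A`-unit `β` whose `r`-th power it fixes;
* `exists_inertia_moves_root` : some `τ ∈ I_A` moves `π` (`π ^ r = p`);
* `dvd_padicValRat_of_fixed_by` : if `τ ∈ I_A` moves `π` and fixes `b`, `b ^ r = a ∈ ℚˣ`, then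
  `r ∣ v_p(a)`.

(Complex conjugation inverts roots of unity: `S30.H990.complexConjugation_root`, on main.)
-/

set_option autoImplicit false

noncomputable section

namespace Fermat.Agent.S15.H11

/-- `ℚ̄` (local abbreviation). -/
local notation "Qb" => AlgebraicClosure ℚ

/-- `Gal(ℚ̄/ℚ)` (local abbreviation). -/
local notation "GQ" => (AlgebraicClosure ℚ ≃ₐ[ℚ] AlgebraicClosure ℚ)

variable (A : ValuationSubring Qb) {p r : ℕ}

/-- Powers of an element `≡ 1 mod 𝔪_A` are `≡ 1 mod 𝔪_A`. -/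
theorem valuation_pow_sub_one_lt_one {ξ : Qb} (h : A.valuation (ξ - 1) < 1) (i : ℕ) :
    A.valuation (ξ ^ i - 1) < 1 := by
  have hξ : A.valuation ξ = 1 := by
    have := Valuation.map_one_add_of_lt (v := A.valuation) h
    rwa [add_sub_cancel] at this
  have hs : A.valuation (∑ j ∈ Finset.range i, ξ ^ j) ≤ 1 := by
    refine Valuation.map_sum_le _ fun j _ => ?_
    rw [map_pow, hξ, one_pow]
  rw [← geom_sum_mul, map_mul]
  calc A.valuation (∑ j ∈ Finset.range i, ξ ^ j) * A.valuation (ξ - 1)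
      ≤ 1 * A.valuation (ξ - 1) := mul_le_mul' hs le_rfl
    _ = A.valuation (ξ - 1) := one_mul _
    _ < 1 := h

/-- **(b)** An `r`-th root of unity congruent to `1` modulo the maximal ideal of a place over
`p ≠ r` is equal to `1`. -/
theorem eq_one_of_pow_eq_one_of_valuation_lt (hp : p.Prime) (hr : r.Prime) (hrp : r ≠ p)
    (hA : A.LiesOverPrime p) {ξ : Qb} (hξ : ξ ^ r = 1) (h : A.valuation (ξ - 1) < 1) :
    ξ = 1 := by
  by_contra hne
  have hne' : ξ - 1 ≠ 0 := sub_ne_zero.mpr hne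
  have hsum : ∑ i ∈ Finset.range r, ξ ^ i = 0 := by
    have h1 := geom_sum_mul ξ r
    rw [hξ, sub_self] at h1
    exact (mul_eq_zero.mp h1).resolve_right hne'
  have hr1 : A.valuation ((r : ℕ) : Qb) = 1 :=
    Fermat.Agent.S56.H186.valuation_natCast_eq_one_of_coprime A hA
      ((Nat.coprime_primes hr hp).mpr hrp)
  have hlt : A.valuation (∑ i ∈ Finset.range r, (ξ ^ i - 1)) < 1 :=
    Valuation.map_sum_lt _ one_ne_zero fun i _ => valuation_pow_sub_one_lt_one A h i
  rw [Finset.sum_sub_distrib, hsum, Finset.sum_const, Finset.card_range, nsmul_eq_mul, mul_one,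
    zero_sub, Valuation.map_neg, hr1] at hlt
  exact lt_irrefl _ hlt

/-- **(b)**, membership form. -/
theorem eq_one_of_pow_eq_one_of_sub_mem (hp : p.Prime) (hr : r.Prime) (hrp : r ≠ p)
    (hA : A.LiesOverPrime p) {ξ : Qb} (hξ : ξ ^ r = 1) (h : ξ - 1 ∈ A.nonunits) : ξ = 1 :=
  eq_one_of_pow_eq_one_of_valuation_lt A hp hr hrp hA hξ (A.mem_nonunits_iff.mp h)

/-- An inertia element at a place over `p` fixes every `A`-unit whose `r`-th power it fixes
(`r ≠ p` prime): the extension generated by an `r`-th root of a unit is unramified. -/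
theorem inertia_fixes_of_pow_fixed (hp : p.Prime) (hr : r.Prime) (hrp : r ≠ p)
    (hA : A.LiesOverPrime p) {σ : GQ} (hσ : σ ∈ A.inertiaSubgroupIn ℚ) {β : Qb}
    (hβ1 : A.valuation β = 1) (hβ : σ (β ^ r) = β ^ r) : σ β = β := by
  have hβ0 : β ≠ 0 := by
    intro h0
    rw [h0, map_zero] at hβ1
    exact zero_ne_one hβ1
  have hβA : β ∈ A := (A.valuation_le_one_iff β).mp hβ1.le
  have hsub : A.valuation (σ β - β) < 1 :=
    A.mem_nonunits_iff.mp (Fermat.Agent.A2.IF.H429.sub_mem_nonunits_of_inertia A hσ hβA)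
  have hξ : (σ β / β) ^ r = 1 := by
    rw [div_pow, ← map_pow, hβ, div_self (pow_ne_zero _ hβ0)]
  have hlt : A.valuation (σ β / β - 1) < 1 := by
    have e : σ β / β - 1 = (σ β - β) / β := by
      field_simp
    rw [e, map_div₀, hβ1, div_one]
    exact hsub
  have h1 := eq_one_of_pow_eq_one_of_valuation_lt A hp hr hrp hA hξ hlt
  exact (div_eq_one_iff_eq hβ0).mp h1

/-- **(a)** Some inertia element at a place over `p` moves an `r`-th root of `p`. -/
theorem exists_inertia_moves_root (hp : p.Prime) (hr : r.Prime)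
    (hA : A.LiesOverPrime p) {π : Qb} (hπ : π ^ r = (p : Qb)) :
    ∃ τ ∈ A.inertiaSubgroupIn ℚ, τ π ≠ π := by
  by_contra hcon
  simp only [not_exists, not_and, not_not] at hcon
  have hπ' : π ^ r = (((p : ℕ) : ℚ) : Qb) := by
    rw [hπ]; push_cast; rfl
  have hdvd := Fermat.Agent.S15.H322.dvd_padicValRat_of_fixed A hp hA
    (a := ((p : ℕ) : ℚ)) (Nat.cast_ne_zero.mpr hp.ne_zero) hπ' hcon
  have : Fact p.Prime := ⟨hp⟩
  rw [padicValRat.self hp.one_lt] at hdvd
  have h1 : (r : ℤ) = 1 ∨ (r : ℤ) = -1 := Int.isUnit_iff.mp (isUnit_of_dvd_one hdvd)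
  rcases h1 with h1 | h1
  · exact hr.one_lt.ne' (by exact_mod_cast h1)
  · have : (0 : ℤ) ≤ r := Int.natCast_nonneg r
    omega

/-- **(c)** If an inertia element `τ` at a place over `p` moves an `r`-th root `π` of `p` and
fixes an `r`-th root `b` of `a ∈ ℚˣ`, then `r ∣ v_p(a)`. -/
theorem dvd_padicValRat_of_fixed_by (hp : p.Prime) (hr : r.Prime) (hrp : r ≠ p)
    (hA : A.LiesOverPrime p) {π : Qb} (hπ : π ^ r = (p : Qb))
    {τ : GQ} (hτ : τ ∈ A.inertiaSubgroupIn ℚ) (hτπ : τ π ≠ π)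
    {a : ℚ} (ha : a ≠ 0) {b : Qb} (hb : b ^ r = (a : Qb)) (hfix : τ b = b) :
    (r : ℤ) ∣ padicValRat p a := by
  set k : ℤ := padicValRat p a with hk
  have hp0 : (p : Qb) ≠ 0 := Nat.cast_ne_zero.mpr hp.ne_zero
  have hπ0 : π ≠ 0 := by
    intro h0
    rw [h0, zero_pow hr.ne_zero] at hπ
    exact hp0 hπ.symm
  have ha0 : (a : Qb) ≠ 0 := by exact_mod_cast ha
  have hb0 : b ≠ 0 := by
    intro h0
    rw [h0, zero_pow hr.ne_zero] at hb
    exact ha0 hb.symm
  -- `ζ = τ π / π` is a primitive `r`-th root of unity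
  set ζ : Qb := τ π / π with hζdef
  have hζr : ζ ^ r = 1 := by
    rw [hζdef, div_pow, ← map_pow, hπ, map_natCast, div_self hp0]
  have hζ1 : ζ ≠ 1 := fun h => hτπ ((div_eq_one_iff_eq hπ0).mp h)
  have hζprim : IsPrimitiveRoot ζ r := by
    have ho : orderOf ζ = r := by
      have : Fact r.Prime := ⟨hr⟩
      exact orderOf_eq_prime hζr hζ1
    rw [← ho]
    exact IsPrimitiveRoot.orderOf ζ
  have hτπ' : τ π = ζ * π := by
    rw [hζdef, div_mul_cancel₀ _ hπ0]
  -- `β = b / π ^ k` is an `A`-unit with rational `r`-th power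
  set β : Qb := b / π ^ k with hβdef
  have hβr : β ^ r = (a : Qb) / (p : Qb) ^ k := by
    rw [hβdef, div_pow, hb, ← zpow_natCast (π ^ k) r, ← zpow_mul, mul_comm k (r : ℤ), zpow_mul,
      zpow_natCast, hπ]
  have hvp0 : A.valuation (p : Qb) ≠ 0 := (Valuation.ne_zero_iff _).mpr hp0
  have hβv : A.valuation β ^ r = 1 := by
    rw [← map_pow, hβr, map_div₀, map_zpow₀,
      Fermat.Agent.S15.H322.valuation_ratCast_eq A hp hA ha, ← hk,
      div_self (zpow_ne_zero _ hvp0)]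
  have hβ1 : A.valuation β = 1 := by
    rcases lt_trichotomy (A.valuation β) 1 with h | h | h
    · exact absurd hβv (pow_lt_one₀ zero_le h hr.ne_zero).ne
    · exact h
    · exact absurd hβv (one_lt_pow₀ h hr.ne_zero).ne'
  have hτβr : τ (β ^ r) = β ^ r := by
    rw [hβr, map_div₀, map_zpow₀, map_natCast, map_ratCast]
  have hτβ : τ β = β := inertia_fixes_of_pow_fixed A hp hr hrp hA hτ hβ1 hτβr
  have hβ0 : β ≠ 0 := by
    intro h0
    rw [h0, map_zero] at hβ1
    exact zero_ne_one hβ1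
  -- `τ b = ζ ^ k * b`
  have hbβ : b = β * π ^ k := by
    rw [hβdef, div_mul_cancel₀ _ (zpow_ne_zero _ hπ0)]
  have hτb : τ b = ζ ^ k * b := by
    conv_lhs => rw [hbβ]
    rw [map_mul, hτβ, map_zpow₀, hτπ', mul_zpow]
    conv_rhs => rw [hbβ]
    ring
  have hζk : ζ ^ k = 1 := by
    rw [hfix] at hτb
    have h2 : (1 : Qb) * b = ζ ^ k * b := by rw [one_mul]; exact hτb
    exact (mul_right_cancel₀ hb0 h2).symm
  exact (hζprim.zpow_eq_one_iff_dvd k).mp hζk

/-- **(c)**, `algebraMap` form (the shape of `H975.PeuOmegaJStatement`). -/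
theorem dvd_padicValRat_of_fixed_by' (hp : p.Prime) (hr : r.Prime) (hrp : r ≠ p)
    (hA : A.LiesOverPrime p) {π : Qb} (hπ : π ^ r = (p : Qb))
    {τ : GQ} (hτ : τ ∈ A.inertiaSubgroupIn ℚ) (hτπ : τ π ≠ π)
    {a : ℚ} (ha : a ≠ 0) {b : Qb} (hb : b ^ r = algebraMap ℚ Qb a) (hfix : τ b = b) :
    (r : ℤ) ∣ padicValRat p a :=
  dvd_padicValRat_of_fixed_by A hp hr hrp hA hπ hτ hτπ ha (by rw [hb, eq_ratCast]) hfix

end Fermat.Agent.S15.H11

end
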